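import Mathlib
import Fermat.Agent.S19.Shell64.Main

/-!
# FFJ / descent of function orders (helper78): equivariant bases

Generic Galois-descent linear algebra for equivariant functions `X → K` (`X` a finite set with an
action of `Aut(K/F)`, `K^{Aut(K/F)} = F`):

* `coeff_mem_range` : the coefficients of an equivariant function with respect to a `K`-linearly
  independent family of equivariant functions are rational (lie in `F`);
* `exists_equivariant_basis` : if equivariant functions separate the points of `X`, there is a
  `K`-basis of `X → K` consisting of equivariant functions;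
* `prodFun` and the product-basis lemmas on `X × Y`.
-/

set_option autoImplicit false

namespace Fermat.Agent.FFJ.Descent.EquivBasis78

open Fermat.Agent.S19.Shell64

section Coeff

variable {F K X : Type*} [Field F] [Field K] [Algebra F K] [MulAction (K ≃ₐ[F] K) X]

/-- twisting the coefficients of a combination of equivariant functions representing an equivariant
function by `σ` gives the same function. -/
theorem sum_map_smul_eq {J : Type*} [Fintype J] {v : J → X → K}
    (hv : ∀ j, IsEquivariantFun F (v j)) {f : X → K} (hf : IsEquivariantFun F f) {c : J → K}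
    (hc : f = ∑ j, c j • v j) (σ : K ≃ₐ[F] K) : f = ∑ j, σ (c j) • v j := by
  funext x
  have h1 := congrFun hc (σ⁻¹ • x)
  simp only [Finset.sum_apply, Pi.smul_apply, smul_eq_mul] at h1 ⊢
  have h2 := congrArg σ h1
  rw [map_sum, ← hf σ (σ⁻¹ • x), smul_inv_smul] at h2
  rw [h2]
  refine Finset.sum_congr rfl fun j _ => ?_
  rw [map_mul, ← hv j σ (σ⁻¹ • x), smul_inv_smul]

/-- **rationality of coefficients.** -/
theorem coeff_mem_range (hfix : FixedFieldEqBase F K) {J : Type*} [Fintype J] {v : J → X → K}
    (hv : ∀ j, IsEquivariantFun F (v j)) (hli : LinearIndependent K v) {f : X → K}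
    (hf : IsEquivariantFun F f) {c : J → K} (hc : f = ∑ j, c j • v j) (j : J) :
    c j ∈ Set.range (algebraMap F K) := by
  apply hfix
  intro σ
  have h1 := sum_map_smul_eq hv hf hc σ
  have h2 : ∑ j, (σ (c j) - c j) • v j = 0 := by
    simp only [sub_smul, Finset.sum_sub_distrib]
    rw [← h1, ← hc, sub_self]
  have h3 := (Fintype.linearIndependent_iff.mp hli) _ h2 j
  exact sub_eq_zero.mp h3

/-- an equivariant function is a rational combination of a spanning independent family of
equivariant functions. -/
theorem exists_rational_coeff (hfix : FixedFieldEqBase F K) {J : Type*} [Fintype J]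
    {v : J → X → K} (hv : ∀ j, IsEquivariantFun F (v j)) (hli : LinearIndependent K v)
    (hspan : ⊤ ≤ Submodule.span K (Set.range v)) {f : X → K} (hf : IsEquivariantFun F f) :
    ∃ q : J → F, f = ∑ j, algebraMap F K (q j) • v j := by
  have hmem : f ∈ Submodule.span K (Set.range v) := hspan Submodule.mem_top
  obtain ⟨c, hc⟩ := (Submodule.mem_span_range_iff_exists_fun K).mp hmem
  have h := fun j => coeff_mem_range hfix hv hli hf hc.symm j
  choose q hq using h
  refine ⟨q, ?_⟩
  rw [← hc]
  exact Finset.sum_congr rfl fun j _ => by rw [hq j]

end Coeff

section Basis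

variable {F K X : Type*} [Field F] [Field K] [Algebra F K] [MulAction (K ≃ₐ[F] K) X]

/-- the `F`-algebra of equivariant functions. -/
def equivariantSubalgebra (F K X : Type*) [Field F] [Field K] [Algebra F K]
    [MulAction (K ≃ₐ[F] K) X] : Subalgebra F (X → K) where
  carrier := {f | IsEquivariantFun F f}
  mul_mem' := by
    intro f g hf hg σ x
    simp only [Pi.mul_apply, map_mul, hf σ x, hg σ x]
  one_mem' := by
    intro σ x
    simp
  add_mem' := by
    intro f g hf hg σ x
    simp only [Pi.add_apply, map_add, hf σ x, hg σ x]
  zero_mem' := by
    intro σ x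
    simp
  algebraMap_mem' := by
    intro r σ x
    simp only [Pi.algebraMap_apply, AlgEquiv.commutes]

theorem mem_equivariantSubalgebra {f : X → K} :
    f ∈ equivariantSubalgebra F K X ↔ IsEquivariantFun F f := Iff.rfl

/-- **existence of an equivariant basis**: if the equivariant functions separate the points of the
finite set `X`, there is a `K`-basis of `X → K` made of equivariant functions. -/
theorem exists_equivariant_basis [Finite X] (hfix : FixedFieldEqBase F K)
    (hsep : ∀ x y : X, x ≠ y → ∃ h : X → K, IsEquivariantFun F h ∧ h x ≠ h y) :
    ∃ (n : ℕ) (v : Fin n → X → K), (∀ j, IsEquivariantFun F (v j)) ∧ LinearIndependent K v ∧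
      ⊤ ≤ Submodule.span K (Set.range v) := by
  classical
  cases nonempty_fintype X
  set V := equivariantSubalgebra F K X with hV
  let b := Module.Basis.ofVectorSpace F V
  let w : Module.Basis.ofVectorSpaceIndex F V → X → K := fun s => ((b s : V) : X → K)
  have hw : ∀ s, IsEquivariantFun F (w s) := fun s => (b s).2
  have hF : LinearIndependent F w :=
    b.linearIndependent.map' V.val.toLinearMap (LinearMap.ker_eq_bot.mpr Subtype.val_injective)
  have hK : LinearIndependent K w := linearIndependent_of_equivariant hfix hw hF
  have hfin : Finite (Module.Basis.ofVectorSpaceIndex F V) := hK.finite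
  cases nonempty_fintype (Module.Basis.ofVectorSpaceIndex F V)
  -- rows are independent too
  have hinj : Function.Injective (evalPt (R := F) (K := K) V.val) := by
    apply evalPt_injective
    intro x y hxy
    obtain ⟨h, hh, hne⟩ := hsep x y hxy
    exact ⟨⟨h, hh⟩, hne⟩
  have hrow := linearIndependent_algHom_basis (K := K) b (evalPt (R := F) (K := K) V.val) hinj
  have h1 := hrow.fintype_card_le_finrank
  have h2 := hK.fintype_card_le_finrank
  rw [Module.finrank_fintype_fun_eq_card] at h1 h2
  have hcard : Fintype.card (Module.Basis.ofVectorSpaceIndex F V) =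
      Module.finrank K (X → K) := by
    rw [Module.finrank_fintype_fun_eq_card]
    exact le_antisymm h2 h1
  have hspan : ⊤ ≤ Submodule.span K (Set.range w) :=
    (hK.span_eq_top_of_card_eq_finrank' hcard).ge
  let e := Fintype.equivFin (Module.Basis.ofVectorSpaceIndex F V)
  refine ⟨_, w ∘ e.symm, fun j => hw _, hK.comp _ e.symm.injective, ?_⟩
  rw [Set.range_comp, e.symm.surjective.range_eq, Set.image_univ]
  exact hspan

end Basis

section Prod

variable {K X Y : Type*} [Field K]

/-- the product function `(x, y) ↦ f x * g y`. -/
def prodFun (f : X → K) (g : Y → K) : X × Y → K := fun p => f p.1 * g p.2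

@[simp] theorem prodFun_apply (f : X → K) (g : Y → K) (p : X × Y) :
    prodFun f g p = f p.1 * g p.2 := rfl

/-- products of two linearly independent families are linearly independent. -/
theorem linearIndependent_prodFun {I J : Type*} [Fintype I] [Fintype J] {v : I → X → K}
    {w : J → Y → K} (hv : LinearIndependent K v) (hw : LinearIndependent K w) :
    LinearIndependent K (fun p : I × J => prodFun (v p.1) (w p.2)) := by
  classical
  rw [Fintype.linearIndependent_iff]
  intro c hc
  have key : ∀ y : Y, ∀ i : I, ∑ j, c (i, j) * w j y = 0 := by
    intro y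
    have h1 : ∑ i, (∑ j, c (i, j) * w j y) • v i = 0 := by
      funext x
      have h2 := congrFun hc (x, y)
      simp only [Finset.sum_apply, Pi.smul_apply, smul_eq_mul, prodFun_apply,
        Pi.zero_apply] at h2 ⊢
      rw [← h2, Fintype.sum_prod_type]
      refine Finset.sum_congr rfl fun i _ => ?_
      rw [Finset.sum_mul]
      refine Finset.sum_congr rfl fun j _ => ?_
      ring
    exact (Fintype.linearIndependent_iff.mp hv) _ h1
  rintro ⟨i, j⟩
  have h3 : ∑ j, c (i, j) • w j = 0 := by
    funext y
    simpa only [Finset.sum_apply, Pi.smul_apply, smul_eq_mul, Pi.zero_apply] using key y i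
  exact (Fintype.linearIndependent_iff.mp hw) _ h3 j

/-- products of two spanning families span. -/
theorem span_prodFun [Finite X] [Finite Y] {I J : Type*} [Fintype I] [Fintype J]
    {v : I → X → K} {w : J → Y → K} (hv : LinearIndependent K v) (hw : LinearIndependent K w)
    (hvs : ⊤ ≤ Submodule.span K (Set.range v)) (hws : ⊤ ≤ Submodule.span K (Set.range w)) :
    ⊤ ≤ Submodule.span K (Set.range (fun p : I × J => prodFun (v p.1) (w p.2))) := by
  classical
  cases nonempty_fintype X
  cases nonempty_fintype Y
  have hli := linearIndependent_prodFun hv hw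
  have hcv : Fintype.card I = Module.finrank K (X → K) := by
    have h1 := hv.fintype_card_le_finrank
    have h2 : Module.finrank K (X → K) ≤ Fintype.card I := by
      have h3 := finrank_span_le_card (R := K) (Set.range v)
      rw [top_le_iff.mp hvs, finrank_top] at h3
      exact h3.trans (by rw [Set.toFinset_range]; exact Finset.card_image_le)
    exact le_antisymm h1 h2
  have hcw : Fintype.card J = Module.finrank K (Y → K) := by
    have h1 := hw.fintype_card_le_finrank
    have h2 : Module.finrank K (Y → K) ≤ Fintype.card J := by
      have h3 := finrank_span_le_card (R := K) (Set.range w)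
      rw [top_le_iff.mp hws, finrank_top] at h3
      exact h3.trans (by rw [Set.toFinset_range]; exact Finset.card_image_le)
    exact le_antisymm h1 h2
  have hcard : Fintype.card (I × J) = Module.finrank K (X × Y → K) := by
    rw [Fintype.card_prod, hcv, hcw, Module.finrank_fintype_fun_eq_card,
      Module.finrank_fintype_fun_eq_card, Module.finrank_fintype_fun_eq_card, Fintype.card_prod]
  exact (hli.span_eq_top_of_card_eq_finrank' hcard).ge

end Prod


section SpanOfSep

variable {R K X H I : Type*} [CommRing R] [Field K] [Algebra R K] [CommRing H] [Algebra R H]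

/-- a free `R`-algebra of functions on a finite set separating its points, with a basis that is
linearly independent over `K`, spans all functions over `K`. -/
theorem span_eq_top_of_separates [Finite X] [Finite I] (φ : H →ₐ[R] (X → K))
    (b : Module.Basis I R H) (hb : LinearIndependent K (fun i => φ (b i)))
    (hsep : ∀ x y : X, x ≠ y → ∃ h : H, φ h x ≠ φ h y) :
    ⊤ ≤ Submodule.span K (Set.range fun i => φ (b i)) := by
  classical
  cases nonempty_fintype X
  cases nonempty_fintype I
  have hrow := linearIndependent_algHom_basis (K := K) b (evalPt φ) (evalPt_injective φ hsep)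
  have h1 := hrow.fintype_card_le_finrank
  have h2 := hb.fintype_card_le_finrank
  rw [Module.finrank_fintype_fun_eq_card] at h1 h2
  have hcard : Fintype.card I = Module.finrank K (X → K) := by
    rw [Module.finrank_fintype_fun_eq_card]
    exact le_antisymm h2 h1
  exact (hb.span_eq_top_of_card_eq_finrank' hcard).ge

end SpanOfSep

section CompLeft

variable {K K' X : Type*} [Field K] [Field K'] (ι : K →+* K')

/-- post-composition with a field embedding. -/
def compι : (X → K) →+* (X → K') := ι.compLeft X

@[simp] theorem compι_apply (h : X → K) (x : X) : compι ι h x = ι (h x) := rfl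

theorem compι_smul (c : K) (h : X → K) : compι ι (c • h) = ι c • compι ι h := by
  funext x
  simp

theorem compι_sum_smul {J : Type*} [Fintype J] (c : J → K) (v : J → X → K) :
    compι ι (∑ j, c j • v j) = ∑ j, ι (c j) • compι ι (v j) := by
  rw [map_sum]
  exact Finset.sum_congr rfl fun j _ => compι_smul ι _ _

theorem compι_injective : Function.Injective (compι ι : (X → K) → (X → K')) := by
  intro f g hfg
  funext x
  exact ι.injective (congrFun hfg x)

/-- the image of a spanning family spans. -/
theorem span_compι [Finite X] {J : Type*} [Fintype J] {v : J → X → K}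
    (hspan : ⊤ ≤ Submodule.span K (Set.range v)) :
    ⊤ ≤ Submodule.span K' (Set.range fun j => compι ι (v j)) := by
  classical
  cases nonempty_fintype X
  intro g _
  have hg : g = ∑ x, g x • compι ι (Pi.single x (1 : K)) := by
    funext y
    simp only [Finset.sum_apply, Pi.smul_apply, compι_apply, smul_eq_mul]
    rw [Finset.sum_eq_single y]
    · simp
    · intro x _ hxy
      rw [Pi.single_eq_of_ne (Ne.symm hxy), map_zero, mul_zero]
    · intro h
      exact absurd (Finset.mem_univ y) h
  rw [hg]
  refine Submodule.sum_mem _ fun x _ => Submodule.smul_mem _ _ ?_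
  have hmem : (Pi.single x (1 : K) : X → K) ∈ Submodule.span K (Set.range v) :=
    hspan Submodule.mem_top
  obtain ⟨c, hc⟩ := (Submodule.mem_span_range_iff_exists_fun K).mp hmem
  rw [← hc, compι_sum_smul]
  exact Submodule.sum_mem _ fun j _ =>
    Submodule.smul_mem _ _ (Submodule.subset_span ⟨j, rfl⟩)

/-- the image of a basis is linearly independent. -/
theorem linearIndependent_compι [Finite X] {J : Type*} [Fintype J] {v : J → X → K}
    (hli : LinearIndependent K v) (hspan : ⊤ ≤ Submodule.span K (Set.range v)) :
    LinearIndependent K' (fun j => compι ι (v j)) := by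
  classical
  cases nonempty_fintype X
  have hcard : Fintype.card J = Module.finrank K (X → K) := by
    have h1 := hli.fintype_card_le_finrank
    have h2 : Module.finrank K (X → K) ≤ Fintype.card J := by
      have h3 := finrank_span_le_card (R := K) (Set.range v)
      rw [top_le_iff.mp hspan, finrank_top] at h3
      exact h3.trans (by rw [Set.toFinset_range]; exact Finset.card_image_le)
    exact le_antisymm h1 h2
  have hcard' : Fintype.card J = Module.finrank K' (X → K') := by
    rw [hcard, Module.finrank_fintype_fun_eq_card, Module.finrank_fintype_fun_eq_card]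
  exact linearIndependent_of_top_le_span_of_card_eq_finrank (span_compι ι hspan) hcard'

end CompLeft

end Fermat.Agent.FFJ.Descent.EquivBasis78
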